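import Mathlib
import Fermat.Agent.H66.SS.Core
import Fermat.Agent.H7.SS.GaussSD

/-!
# P-SS row 929 (SSH-16 FRAC), part 1 (helper30): generic tools

* `frac_expand_fin`, `frac_expand` : the EXPANSION form of the two-sided `q`-expansion principle
  (`Fermat.Agent.H82.SS.qexp2_core` keeping the expansion): for `z ∈ V_∞ ∩ V_0` there are
  `h, p_s ∈ A₀[X]`, `ϖ ∤ h`, with `h(x) z = ∑ p_s(x) e_s`.
* a small toolkit for `Fermat.Agent.H7.SS.InV` / `InM`.
-/

set_option autoImplicit false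
set_option maxSynthPendingDepth 3
set_option linter.style.haveILetI false
set_option linter.unusedSectionVars false

noncomputable section

namespace Fermat.Agent.H30.SS

open Polynomial ModularCurve
open Fermat.Agent.H22.KL
open Fermat.Agent.H67.KLConn (PiDvd)
open Fermat.Agent.H87.KL
open Fermat.Agent.H48.QExp
open Fermat.Agent.H7.SS

section Expand

variable {K₁ : Type} [Field K₁] {A₀ : Type} [CommRing A₀] [IsDomain A₀]
  [IsDiscreteValuationRing A₀] [Algebra A₀ K₁] [IsFractionRing A₀ K₁]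
  {E : Type} [Field E] [Algebra K₁ E] [Algebra A₀ E] [IsScalarTower A₀ K₁ E]

/-- **Expansion form of the two-sided `q`-expansion principle** (family indexed by `Fin n`). -/
theorem frac_expand_fin (ι₁ ι₂ : E →ₐ[K₁] LaurentSeries K₁) (ϖ : A₀) (hϖ : Irreducible ϖ)
    (x : E) (xA₁ xA₂ : LaurentSeries A₀)
    (hxA₁ : coeffMap (algebraMap A₀ K₁) xA₁ = ι₁ x)
    (hxA₂ : coeffMap (algebraMap A₀ K₁) xA₂ = ι₂ x)
    (n : ℕ) (e : Fin n → E)
    (eA₁ eA₂ : Fin n → LaurentSeries A₀)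
    (heA₁ : ∀ i, coeffMap (algebraMap A₀ K₁) (eA₁ i) = ι₁ (e i))
    (heA₂ : ∀ i, coeffMap (algebraMap A₀ K₁) (eA₂ i) = ι₂ (e i))
    (hspan : ∀ y : E, ∃ c : Fin n → E, (∀ i, c i ∈ chartField A₀ E x) ∧
      y = ∑ i, c i * e i)
    (hGI : ∀ p : Fin n → (IsLocalRing.ResidueField A₀)[X],
      ∑ i, aeval (coeffMap (IsLocalRing.residue A₀) xA₁) (p i) *
        coeffMap (IsLocalRing.residue A₀) (eA₁ i) = 0 →
      ∑ i, aeval (coeffMap (IsLocalRing.residue A₀) xA₂) (p i) *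
        coeffMap (IsLocalRing.residue A₀) (eA₂ i) = 0 → ∀ i, p i = 0)
    (z a b a' b' : E)
    (ha : ∀ m : ℤ, (ι₁ a).coeff m ∈ (algebraMap A₀ K₁).range)
    (hb : ∀ m : ℤ, (ι₁ b).coeff m ∈ (algebraMap A₀ K₁).range)
    (hbu : ∃ (m : ℤ) (c : A₀), IsUnit c ∧ algebraMap A₀ K₁ c = (ι₁ b).coeff m)
    (ha' : ∀ m : ℤ, (ι₂ a').coeff m ∈ (algebraMap A₀ K₁).range)
    (hb' : ∀ m : ℤ, (ι₂ b').coeff m ∈ (algebraMap A₀ K₁).range)
    (hbu' : ∃ (m : ℤ) (c : A₀), IsUnit c ∧ algebraMap A₀ K₁ c = (ι₂ b').coeff m)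
    (hz : z * b = a) (hz' : z * b' = a') :
    ∃ (h : A₀[X]) (p : Fin n → A₀[X]), ¬ C ϖ ∣ h ∧
      aeval x h * z = ∑ i, aeval x (p i) * e i := by
  classical
  have hφ : Function.Injective (algebraMap A₀ K₁) := IsFractionRing.injective A₀ K₁
  have hAE : Function.Injective (algebraMap A₀ E) := by
    rw [IsScalarTower.algebraMap_eq A₀ K₁ E]
    exact (algebraMap K₁ E).injective.comp hφ
  -- coordinates of `z`
  obtain ⟨c, hc, hy⟩ := hspan z
  obtain ⟨h₀, hh₀, hp₀⟩ := exists_common_denominator (A := A₀) Finset.univ x c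
    fun i _ => hc i
  choose p₀ hp₀ using fun i => hp₀ i (Finset.mem_univ i)
  obtain ⟨h, p, hh, hp, hnorm⟩ := exists_normalized hAE hϖ x c h₀ hh₀ p₀ hp₀
  -- the equation `h(x) * z = ∑ p_i(x) e_i`
  have hsum : aeval x h * z = ∑ i, aeval x (p i) * e i := by
    conv_lhs => rw [hy]
    rw [Finset.mul_sum]
    refine Finset.sum_congr rfl fun i _ => ?_
    rw [← hp i]
    ring
  have heq : aeval x h * a = b * ∑ i, aeval x (p i) * e i := by
    rw [← hsum, ← hz]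
    ring
  have heq' : aeval x h * a' = b' * ∑ i, aeval x (p i) * e i := by
    rw [← hsum, ← hz']
    ring
  -- `ϖ ∤ h`
  refine ⟨h, p, ?_, hsum⟩
  intro hd
  apply hnorm
  refine ⟨hd, ?_⟩
  have hd0 : h.map (IsLocalRing.residue A₀) = 0 := (map_residue_eq_zero_iff hϖ h).2 hd
  have h1 := Fermat.Agent.H82.SS.qexp2_reduce ι₁ ϖ x xA₁ hxA₁ n e eA₁ heA₁ a b ha hb hbu h p
    heq hd0
  have h2 := Fermat.Agent.H82.SS.qexp2_reduce ι₂ ϖ x xA₂ hxA₂ n e eA₂ heA₂ a' b' ha' hb' hbu'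
    h p heq' hd0
  intro i
  exact (map_residue_eq_zero_iff hϖ (p i)).1 (hGI _ h1 h2 i)

/-- **Expansion form of the two-sided `q`-expansion principle** (family indexed by a finite
type, the spanning hypothesis being replaced by the degree). -/
theorem frac_expand {ι : Type} [Fintype ι] [Nonempty ι]
    (j₁ j₂ : E →ₐ[K₁] LaurentSeries K₁) (ϖ : A₀) (hϖ : Irreducible ϖ)
    (x : E) (xA₁ xA₂ : LaurentSeries A₀)
    (hxA₁ : coeffMap (algebraMap A₀ K₁) xA₁ = j₁ x)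
    (hxA₂ : coeffMap (algebraMap A₀ K₁) xA₂ = j₂ x)
    (e : ι → E)
    (eA₁ eA₂ : ι → LaurentSeries A₀)
    (heA₁ : ∀ i, coeffMap (algebraMap A₀ K₁) (eA₁ i) = j₁ (e i))
    (heA₂ : ∀ i, coeffMap (algebraMap A₀ K₁) (eA₂ i) = j₂ (e i))
    (hfin : Module.finrank (chartField A₀ E x) E = Fintype.card ι)
    (hGI : ∀ p : ι → (IsLocalRing.ResidueField A₀)[X],
      ∑ i, aeval (coeffMap (IsLocalRing.residue A₀) xA₁) (p i) *
        coeffMap (IsLocalRing.residue A₀) (eA₁ i) = 0 →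
      ∑ i, aeval (coeffMap (IsLocalRing.residue A₀) xA₂) (p i) *
        coeffMap (IsLocalRing.residue A₀) (eA₂ i) = 0 → ∀ i, p i = 0)
    (z a b a' b' : E)
    (ha : ∀ m : ℤ, (j₁ a).coeff m ∈ (algebraMap A₀ K₁).range)
    (hb : ∀ m : ℤ, (j₁ b).coeff m ∈ (algebraMap A₀ K₁).range)
    (hbu : ∃ (m : ℤ) (c : A₀), IsUnit c ∧ algebraMap A₀ K₁ c = (j₁ b).coeff m)
    (ha' : ∀ m : ℤ, (j₂ a').coeff m ∈ (algebraMap A₀ K₁).range)
    (hb' : ∀ m : ℤ, (j₂ b').coeff m ∈ (algebraMap A₀ K₁).range)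
    (hbu' : ∃ (m : ℤ) (c : A₀), IsUnit c ∧ algebraMap A₀ K₁ c = (j₂ b').coeff m)
    (hz : z * b = a) (hz' : z * b' = a') :
    ∃ (h : A₀[X]) (p : ι → A₀[X]), ¬ C ϖ ∣ h ∧
      aeval x h * z = ∑ i, aeval x (p i) * e i := by
  classical
  have hind := Fermat.Agent.H66.SS.ssc_indep j₁ j₂ ϖ hϖ x xA₁ xA₂ hxA₁ hxA₂ e eA₁ eA₂ heA₁ heA₂
    hGI
  have hspan := Fermat.Agent.H66.SS.ssc_span (A₀ := A₀) x e hfin hind
  set σ : ι ≃ Fin (Fintype.card ι) := Fintype.equivFin ι with hσ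
  obtain ⟨h, p, hnd, hsum⟩ := frac_expand_fin j₁ j₂ ϖ hϖ x xA₁ xA₂ hxA₁ hxA₂ (Fintype.card ι)
    (fun k => e (σ.symm k)) (fun k => eA₁ (σ.symm k)) (fun k => eA₂ (σ.symm k))
    (fun k => heA₁ _) (fun k => heA₂ _) (by
      intro y
      obtain ⟨c, hc, hy⟩ := hspan y
      refine ⟨fun k => c (σ.symm k), fun k => hc _, ?_⟩
      rw [hy]
      exact (Equiv.sum_comp σ.symm (fun i => c i * e i)).symm) (by
      intro p h1 h2 k
      have h1' : ∑ i, aeval (coeffMap (IsLocalRing.residue A₀) xA₁) (p (σ i)) *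
          coeffMap (IsLocalRing.residue A₀) (eA₁ i) = 0 := by
        rw [← h1]
        rw [← Equiv.sum_comp σ]
        refine Finset.sum_congr rfl fun i _ => ?_
        rw [Equiv.symm_apply_apply]
      have h2' : ∑ i, aeval (coeffMap (IsLocalRing.residue A₀) xA₂) (p (σ i)) *
          coeffMap (IsLocalRing.residue A₀) (eA₂ i) = 0 := by
        rw [← h2]
        rw [← Equiv.sum_comp σ]
        refine Finset.sum_congr rfl fun i _ => ?_
        rw [Equiv.symm_apply_apply]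
      have h3 := hGI (fun i => p (σ i)) h1' h2' (σ.symm k)
      simpa using h3) z a b a' b' ha hb hbu ha' hb' hbu' hz hz'
  refine ⟨h, fun i => p (σ i), hnd, ?_⟩
  rw [hsum, ← Equiv.sum_comp σ]
  refine Finset.sum_congr rfl fun i _ => ?_
  rw [Equiv.symm_apply_apply]

end Expand

section Toolkit

variable {K₁ : Type} [Field K₁] {A₀ : Type} [CommRing A₀] [IsDomain A₀]
  [IsDiscreteValuationRing A₀] [Algebra A₀ K₁] [IsFractionRing A₀ K₁]
  (E : IntermediateField K₁ (LaurentSeries K₁))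

theorem inM_add {x y : LaurentSeries K₁} (hx : InM (A₀ := A₀) E x) (hy : InM (A₀ := A₀) E y) :
    InM (A₀ := A₀) E (x + y) := by
  obtain ⟨a, b, ha, hb, hra, hrb, hx⟩ := hx
  obtain ⟨c, d, hc, hd, hrc, hrd, hy⟩ := hy
  refine ⟨a * d + c * b, b * d, ?_, ?_, ?_, ?_, ?_⟩
  · rw [map_add, map_mul, map_mul]; exact E.add_mem (E.mul_mem ha hd) (E.mul_mem hc hb)
  · rw [map_mul]; exact E.mul_mem hb hd
  · rw [map_add, map_mul, map_mul, hra, hrc, zero_mul, zero_mul, add_zero]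
  · rw [map_mul]; exact mul_ne_zero hrb hrd
  · rw [map_mul, map_add, map_mul, map_mul, ← hx, ← hy]; ring

theorem inM_mul_inV {x y : LaurentSeries K₁} (hx : InM (A₀ := A₀) E x)
    (hy : InV (A₀ := A₀) E y) : InM (A₀ := A₀) E (x * y) := by
  obtain ⟨a, b, ha, hb, hra, hrb, hx⟩ := hx
  obtain ⟨c, d, hc, hd, hrd, hy⟩ := hy
  refine ⟨a * c, b * d, ?_, ?_, ?_, ?_, ?_⟩
  · rw [map_mul]; exact E.mul_mem ha hc
  · rw [map_mul]; exact E.mul_mem hb hd
  · rw [map_mul, hra, zero_mul]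
  · rw [map_mul]; exact mul_ne_zero hrb hrd
  · rw [map_mul, map_mul, ← hx, ← hy]; ring

theorem inV_mul_inM {x y : LaurentSeries K₁} (hx : InV (A₀ := A₀) E x)
    (hy : InM (A₀ := A₀) E y) : InM (A₀ := A₀) E (x * y) := by
  rw [mul_comm]
  exact inM_mul_inV E hy hx

theorem inM_neg {x : LaurentSeries K₁} (hx : InM (A₀ := A₀) E x) : InM (A₀ := A₀) E (-x) := by
  obtain ⟨a, b, ha, hb, hra, hrb, hx⟩ := hx
  exact ⟨-a, b, by rw [map_neg]; exact E.neg_mem ha, hb, by rw [map_neg, hra, neg_zero], hrb,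
    by rw [map_neg, ← hx, neg_mul]⟩

theorem inM_sum {ι : Type*} (s : Finset ι) (f : ι → LaurentSeries K₁)
    (hf : ∀ i ∈ s, InM (A₀ := A₀) E (f i)) : InM (A₀ := A₀) E (∑ i ∈ s, f i) := by
  classical
  induction s using Finset.induction_on with
  | empty => rw [Finset.sum_empty]; exact inM_zero E
  | insert a s ha ih =>
    rw [Finset.sum_insert ha]
    exact inM_add E (hf a (Finset.mem_insert_self a s))
      (ih fun i hi => hf i (Finset.mem_insert_of_mem hi))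

theorem inV_pow {x : LaurentSeries K₁} (hx : InV (A₀ := A₀) E x) (n : ℕ) :
    InV (A₀ := A₀) E (x ^ n) := by
  induction n with
  | zero => rw [pow_zero]; exact inV_one E
  | succ n ih => rw [pow_succ]; exact InV.mul E ih hx

theorem inV_sub {x y : LaurentSeries K₁} (hx : InV (A₀ := A₀) E x) (hy : InV (A₀ := A₀) E y) :
    InV (A₀ := A₀) E (x - y) := by
  rw [sub_eq_add_neg]
  exact InV.add E hx (InV.neg E hy)

/-- an element of `E` with integral expansion lies in the Gauss valuation ring -/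
theorem inV_of_int {a : LaurentSeries A₀} (ha : gIota K₁ A₀ a ∈ E) :
    InV (A₀ := A₀) E (gIota K₁ A₀ a) :=
  ⟨a, 1, ha, by rw [map_one]; exact E.one_mem, by rw [map_one]; exact one_ne_zero,
    by rw [map_one, mul_one]⟩

/-- an element of `E` with integral expansion `≡ 0` lies in the maximal ideal -/
theorem inM_of_int {a : LaurentSeries A₀} (ha : gIota K₁ A₀ a ∈ E) (hra : gRho A₀ a = 0) :
    InM (A₀ := A₀) E (gIota K₁ A₀ a) :=
  ⟨a, 1, ha, by rw [map_one]; exact E.one_mem, hra, by rw [map_one]; exact one_ne_zero,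
    by rw [map_one, mul_one]⟩

/-- an element of `E` with primitive integral expansion does not lie in the maximal ideal -/
theorem not_inM_of_int {a : LaurentSeries A₀} (hra : gRho A₀ a ≠ 0) :
    ¬ InM (A₀ := A₀) E (gIota K₁ A₀ a) := by
  rintro ⟨c, d, -, -, hrc, hrd, h⟩
  have h1 : a * d = c := by
    apply gIota_injective K₁ A₀
    rw [map_mul]
    exact h
  have h2 := congrArg (gRho A₀) h1
  rw [map_mul, hrc] at h2
  exact mul_ne_zero hra hrd h2

/-- the inverse of an element of `E` with primitive integral expansion lies in the Gauss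
valuation ring -/
theorem inV_inv_of_int {a : LaurentSeries A₀} (ha : gIota K₁ A₀ a ∈ E) (hra : gRho A₀ a ≠ 0) :
    InV (A₀ := A₀) E (gIota K₁ A₀ a)⁻¹ := by
  have h0 := gIota_ne_zero_of_gRho (K₁ := K₁) hra
  exact ⟨1, a, by rw [map_one]; exact E.one_mem, ha, hra, by
    rw [map_one, inv_mul_cancel₀ h0]⟩

/-- quotient form (coefficient language) implies `InV` -/
theorem inV_of_quot {z a b : LaurentSeries K₁} (haE : a ∈ E) (hbE : b ∈ E)
    (ha : ∀ n : ℤ, a.coeff n ∈ (algebraMap A₀ K₁).range)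
    (hb : ∀ n : ℤ, b.coeff n ∈ (algebraMap A₀ K₁).range)
    (hbu : ∃ (n : ℤ) (c : A₀), IsUnit c ∧ algebraMap A₀ K₁ c = b.coeff n)
    (h : z * b = a) : InV (A₀ := A₀) E z := by
  have hφ : Function.Injective (algebraMap A₀ K₁) := IsFractionRing.injective A₀ K₁
  obtain ⟨aA, haA⟩ := exists_coeffMap_eq (algebraMap A₀ K₁) hφ a ha
  obtain ⟨bA, hbA⟩ := exists_coeffMap_eq (algebraMap A₀ K₁) hφ b hb
  obtain ⟨m₀, u, hu, hum⟩ := hbu
  have hbAu : bA.coeff m₀ = u := by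
    apply hφ
    rw [hum, ← hbA, coeffMap_coeff]
  refine ⟨aA, bA, ?_, ?_, ?_, ?_⟩
  · rw [show gIota K₁ A₀ aA = a from haA]; exact haE
  · rw [show gIota K₁ A₀ bA = b from hbA]; exact hbE
  · apply coeffMap_ne_zero_of_coeff _ bA m₀
    rw [hbAu]
    intro h0
    rw [IsLocalRing.residue_eq_zero_iff] at h0
    exact (IsLocalRing.mem_maximalIdeal u).1 h0 hu
  · rw [show gIota K₁ A₀ aA = a from haA, show gIota K₁ A₀ bA = b from hbA]
    exact h

/-- `InM` in coefficient language -/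
theorem inM_iff_quot {ϖ : A₀} (hϖ : Irreducible ϖ) (z : E) :
    InM (A₀ := A₀) E (z : LaurentSeries K₁) ↔
      ∃ a b : E,
        (∀ n : ℤ, ∃ c : A₀, algebraMap A₀ K₁ (ϖ * c) = (a : LaurentSeries K₁).coeff n) ∧
        (∀ n : ℤ, (b : LaurentSeries K₁).coeff n ∈ (algebraMap A₀ K₁).range) ∧
        (∃ (n : ℤ) (c : A₀), IsUnit c ∧ algebraMap A₀ K₁ c = (b : LaurentSeries K₁).coeff n) ∧
        z * b = a := by
  have hφ : Function.Injective (algebraMap A₀ K₁) := IsFractionRing.injective A₀ K₁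
  constructor
  · rintro ⟨a, b, ha, hb, hra, hrb, h⟩
    refine ⟨⟨_, ha⟩, ⟨_, hb⟩, fun n => ?_,
      fun n => ⟨b.coeff n, (coeffMap_coeff _ _ _).symm⟩, ?_, Subtype.ext h⟩
    · have h1 : IsLocalRing.residue A₀ (a.coeff n) = 0 := by
        rw [← coeffMap_coeff, show coeffMap (IsLocalRing.residue A₀) a = 0 from hra,
          HahnSeries.coeff_zero]
      rw [IsLocalRing.residue_eq_zero_iff, hϖ.maximalIdeal_eq, Ideal.mem_span_singleton] at h1
      obtain ⟨t, ht⟩ := h1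
      refine ⟨t, ?_⟩
      rw [← ht]
      exact (coeffMap_coeff _ _ _).symm
    · by_contra hcon
      apply hrb
      ext n
      rw [coeffMap_coeff, HahnSeries.coeff_zero, IsLocalRing.residue_eq_zero_iff,
        IsLocalRing.mem_maximalIdeal]
      intro hu
      exact hcon ⟨n, b.coeff n, hu, (coeffMap_coeff _ _ _).symm⟩
  · rintro ⟨a, b, ha, hb, hbu, h⟩
    obtain ⟨aA, haA⟩ := exists_coeffMap_eq (algebraMap A₀ K₁) hφ (a : LaurentSeries K₁)
      (fun n => by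
        obtain ⟨c, hc⟩ := ha n
        exact ⟨ϖ * c, hc⟩)
    obtain ⟨bA, hbA⟩ := exists_coeffMap_eq (algebraMap A₀ K₁) hφ (b : LaurentSeries K₁) hb
    obtain ⟨m₀, u, hu, hum⟩ := hbu
    have hbAu : bA.coeff m₀ = u := by
      apply hφ
      rw [hum, ← hbA, coeffMap_coeff]
    refine ⟨aA, bA, ?_, ?_, ?_, ?_, ?_⟩
    · rw [show gIota K₁ A₀ aA = a from haA]; exact a.2
    · rw [show gIota K₁ A₀ bA = b from hbA]; exact b.2
    · ext n
      rw [coeffMap_coeff, HahnSeries.coeff_zero, IsLocalRing.residue_eq_zero_iff,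
        hϖ.maximalIdeal_eq, Ideal.mem_span_singleton]
      obtain ⟨c, hc⟩ := ha n
      refine ⟨c, ?_⟩
      apply hφ
      rw [hc, ← haA, coeffMap_coeff]
    · apply coeffMap_ne_zero_of_coeff _ bA m₀
      rw [hbAu]
      intro h0
      rw [IsLocalRing.residue_eq_zero_iff] at h0
      exact (IsLocalRing.mem_maximalIdeal u).1 h0 hu
    · rw [show gIota K₁ A₀ aA = a from haA, show gIota K₁ A₀ bA = b from hbA]
      exact congrArg Subtype.val h

/-- **discreteness**: every element of `E` becomes integral after multiplication by a power of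
the uniformiser -/
theorem exists_pow_mul_inV (hG : HasGNF A₀ E) {ϖ : A₀} (hϖ : Irreducible ϖ)
    {y : LaurentSeries K₁} (hy : y ∈ E) :
    ∃ n : ℕ, InV (A₀ := A₀) E
      (algebraMap K₁ (LaurentSeries K₁) (algebraMap A₀ K₁ ϖ) ^ n * y) := by
  have hφ : Function.Injective (algebraMap A₀ K₁) := IsFractionRing.injective A₀ K₁
  by_cases hy0 : y = 0
  · exact ⟨0, by rw [hy0, mul_zero]; exact inV_zero E⟩
  obtain ⟨c, a, b, hc, ha, hb, hra, hrb, h⟩ := hG y hy hy0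
  -- `c = r / s`, `s = unit * ϖ ^ n`
  obtain ⟨r, s, hs, hrs⟩ := IsFractionRing.div_surjective (A := A₀) c
  have hs0 : s ≠ 0 := nonZeroDivisors.ne_zero hs
  obtain ⟨n, u, hu⟩ := IsDiscreteValuationRing.eq_unit_mul_pow_irreducible hs0 hϖ
  have hsK : algebraMap A₀ K₁ s ≠ 0 := fun h0 => hs0 ((map_eq_zero_iff _ hφ).1 h0)
  have hc' : algebraMap A₀ K₁ ϖ ^ n * c = algebraMap A₀ K₁ (((u⁻¹ : A₀ˣ) : A₀) * r) := by
    have hϖK : algebraMap A₀ K₁ ϖ ≠ 0 := fun h0 => hϖ.ne_zero ((map_eq_zero_iff _ hφ).1 h0)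
    have huK : algebraMap A₀ K₁ (u : A₀) ≠ 0 :=
      fun h0 => u.ne_zero ((map_eq_zero_iff _ hφ).1 h0)
    have huinv : algebraMap A₀ K₁ ((u⁻¹ : A₀ˣ) : A₀) = (algebraMap A₀ K₁ (u : A₀))⁻¹ := by
      apply eq_inv_of_mul_eq_one_left
      rw [← map_mul, Units.inv_mul, map_one]
    rw [← hrs, hu, map_mul, map_mul, map_pow, huinv]
    field_simp
  refine ⟨n, algebraMap A₀ (LaurentSeries A₀) (((u⁻¹ : A₀ˣ) : A₀) * r) * a, b, ?_, hb, hrb, ?_⟩
  · rw [gIota_algebraMap_mul]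
    exact E.mul_mem (E.algebraMap_mem _) ha
  · rw [gIota_algebraMap_mul, ← hc', mul_assoc, h, map_mul, map_pow]
    ring

end Toolkit

end Fermat.Agent.H30.SS
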