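import Mathlib
import Fermat.Agent.H30.SS.FracCore
import Fermat.Agent.H66.SS.ModelQExp2Final

/-!
# P-SS row 929 (SSH-16 FRAC), part 2 (helper30): the expansion form of the two-sided
`q`-expansion principle in the model field of level `M q`

`modelExpand` : there are `d`, `θ_M`, `x_M` of LEVEL `M` (`x_M = j`, `θ_M` with integral
expansion, `α θ_M` integral over `A₀[x]`) such that every `z ∈ V_∞ ∩ V_0` has an expansion
`h(x) z = ∑_i p_i(x) θ^i + ∑_(i,j) r_ij(x) θ^i u x_q^j` with `h, p_i, r_ij ∈ A₀[X]`, `ϖ ∤ h`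
(`θ = α θ_M`, `x_q = β x_M`, `u = x_q - x^q`).
-/

set_option autoImplicit false
set_option maxSynthPendingDepth 3
set_option linter.unusedSectionVars false
set_option linter.style.haveILetI false
set_option synthInstance.maxHeartbeats 400000
set_option maxHeartbeats 1600000

noncomputable section

namespace Fermat.Agent.H30.SS

open Polynomial ModularCurve
open Fermat.Agent.H22.KL Fermat.Agent.H27.KLGB Fermat.Agent.H82.SS Fermat.Agent.H66.SS
open Fermat.Agent.H7.SS

/-- **Expansion form of the two-sided `q`-expansion principle** at level `M q`. -/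
theorem modelExpand (M q : ℕ) [NeZero M] [NeZero q] (hq : q.Prime) (hqM : ¬ q ∣ M)
    (K₁ : Type) [Field K₁] [Algebra ℚ K₁] [FiniteDimensional ℚ K₁]
    (A₀ : Type) [CommRing A₀] [IsDomain A₀] [IsDiscreteValuationRing A₀]
    [Algebra A₀ K₁] [IsFractionRing A₀ K₁]
    [Algebra A₀ (ModelField K₁ (M * q))] [IsScalarTower A₀ K₁ (ModelField K₁ (M * q))]
    (hqA : ¬ IsUnit ((q : ℕ) : A₀)) (ϖ : A₀) (hϖ : Irreducible ϖ)
    (x : ModelField K₁ (M * q)) (hx : (x : LaurentSeries K₁) = coeffEmb K₁ jq)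
    (W : ModelField K₁ (M * q) ≃ₐ[K₁] ModelField K₁ (M * q))
    (hW : IsAtkinLehnerModel K₁ M q W) :
    ∃ (d : ℕ) (θM xM : ModelField K₁ M),
      (xM : LaurentSeries K₁) = jqModC K₁ ∧
      heckeAlphaBar K₁ M q θM ∈ chartClosure A₀ (ModelField K₁ (M * q)) x ∧
      (∃ θA : LaurentSeries A₀, gIota K₁ A₀ θA = (θM : LaurentSeries K₁)) ∧
      ∀ z : ModelField K₁ (M * q),
        InV (A₀ := A₀) (laurentBaseChange K₁ (modularFunctionFieldFull (M * q)))
          (z : LaurentSeries K₁) →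
        InV (A₀ := A₀) (laurentBaseChange K₁ (modularFunctionFieldFull (M * q)))
          (W z : LaurentSeries K₁) →
        ∃ (h : A₀[X]) (p : Fin d → A₀[X]) (r : Fin d → Fin q → A₀[X]), ¬ C ϖ ∣ h ∧
          aeval x h * z = ∑ i, aeval x (p i) * heckeAlphaBar K₁ M q θM ^ (i : ℕ) +
            ∑ i, ∑ j, aeval x (r i j) *
              (heckeAlphaBar K₁ M q θM ^ (i : ℕ) * (heckeBetaBar K₁ M q xM - x ^ q) *
                heckeBetaBar K₁ M q xM ^ (j : ℕ)) := by
  classical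
  have hNZ : NeZero (M * q) := ⟨Nat.mul_ne_zero (NeZero.ne M) (NeZero.ne q)⟩
  have hTw := Fermat.Agent.H3.SSTwist.twistIndep
  have hInt := modelIntegral (M * q)
  have hDeg := Fermat.Agent.H57.SS.modelFinrank (M * q)
  have hFrob := Fermat.Agent.H57.SS.frob
  have : Fact q.Prime := ⟨hq⟩
  obtain ⟨θ, P, hθ, hPm, hPnat, hPθ, -, -, hmin, hall⟩ := goodPrimitive_j_full M q hqM
  have hn : (minpoly ↥(kJ (ZMod q)) (coeffMap (Int.castRingHom (ZMod q)) θ)).natDegree =
      dedekindPsi M := by rw [hmin, hPm.natDegree_map, hPnat]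
  obtain ⟨d, hd⟩ : ∃ d : ℕ, d = dedekindPsi M := ⟨_, rfl⟩
  rw [← hd] at hn
  have hdpos : 0 < d := by rw [hd]; exact ssf_dedekindPsi_pos M
  -- level `M` elements and their images
  have : CharZero K₁ := algebraRat.charZero K₁
  obtain ⟨hθQ, -, -⟩ := hall ℚ
  have hθM : coeffMap (Int.castRingHom K₁) θ ∈
      laurentBaseChange K₁ (modularFunctionFieldFull M) := by
    rw [← coeffEmb_coeffMap_int]
    exact coeffEmb_mem_laurentBaseChange K₁ hθQ
  have hxM : jqModC K₁ ∈ laurentBaseChange K₁ (modularFunctionFieldFull M) := by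
    rw [← coeffEmb_jq]
    exact coeffEmb_mem_laurentBaseChange K₁ (jqModC_mem_full ℚ M)
  obtain ⟨θM, hθMc⟩ : ∃ θM : ModelField K₁ M,
      (θM : LaurentSeries K₁) = coeffMap (Int.castRingHom K₁) θ := ⟨⟨_, hθM⟩, rfl⟩
  obtain ⟨xM, hxMc⟩ : ∃ xM : ModelField K₁ M, (xM : LaurentSeries K₁) = jqModC K₁ :=
    ⟨⟨_, hxM⟩, rfl⟩
  obtain ⟨θu, hθudef⟩ : ∃ θu : ModelField K₁ (M * q), θu = heckeAlphaBar K₁ M q θM := ⟨_, rfl⟩
  obtain ⟨θv, hθvdef⟩ : ∃ θv : ModelField K₁ (M * q), θv = heckeBetaBar K₁ M q θM := ⟨_, rfl⟩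
  obtain ⟨xu, hxudef⟩ : ∃ xu : ModelField K₁ (M * q), xu = heckeAlphaBar K₁ M q xM := ⟨_, rfl⟩
  obtain ⟨xv, hxvdef⟩ : ∃ xv : ModelField K₁ (M * q), xv = heckeBetaBar K₁ M q xM := ⟨_, rfl⟩
  have hθu : (θu : LaurentSeries K₁) = coeffMap (Int.castRingHom K₁) θ := by
    rw [hθudef, coe_heckeAlphaBar, hθMc]
  have hθv : (θv : LaurentSeries K₁) = qExpand K₁ q (coeffMap (Int.castRingHom K₁) θ) := by
    rw [hθvdef, coe_heckeBetaBar, hθMc]
  have hxu : (xu : LaurentSeries K₁) = jqModC K₁ := by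
    rw [hxudef, coe_heckeAlphaBar, hxMc]
  have hxv : (xv : LaurentSeries K₁) = qExpand K₁ q (jqModC K₁) := by
    rw [hxvdef, coe_heckeBetaBar, hxMc]
  have hWθu : W θu = θv := by rw [hθudef, hθvdef]; exact hW.1 _
  have hWθv : W θv = θu := by rw [hθudef, hθvdef]; exact hW.2 _
  have hWxu : W xu = xv := by rw [hxudef, hxvdef]; exact hW.1 _
  have hWxv : W xv = xu := by rw [hxudef, hxvdef]; exact hW.2 _
  have hxxu : x = xu := Subtype.ext (by rw [hx, hxu, coeffEmb_jq])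
  -- expansions over `K₁` of the integral series
  have hθK : coeffMap (Int.castRingHom K₁) θ = (θu : LaurentSeries K₁) := hθu.symm
  have hxK : coeffMap (Int.castRingHom K₁) (jqModC ℤ) = (xu : LaurentSeries K₁) := by
    rw [coeffMap_jqModC, hxu]
  -- the family
  choose e he_exp he_int using
    fun s : Fin d ⊕ (Fin d × Fin q) => hInt K₁ A₀ x hx _ (ssf_famInf_mem M q hθ d s)
  have he_inl : ∀ i : Fin d, e (Sum.inl i) = θu ^ (i : ℕ) := by
    intro i
    apply Subtype.ext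
    rw [he_exp, coeffMap_famInf]
    simp only [famInf]
    rw [hθK]
    rfl
  have he_inr : ∀ (i : Fin d) (j : Fin q),
      e (Sum.inr (i, j)) = θu ^ (i : ℕ) * (xv - xu ^ q) * xv ^ (j : ℕ) := by
    intro i j
    apply Subtype.ext
    rw [he_exp, coeffMap_famInf]
    simp only [famInf]
    rw [hθK, hxK]
    push_cast
    rw [hxv, hxu]
  -- the expansions at `0`
  have hWe : ∀ s, ((W (e s) : ModelField K₁ (M * q)) : LaurentSeries K₁) =
      coeffMap (Int.castRingHom K₁) (famZero ℤ q (jqModC ℤ) θ d s) := by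
    rintro (i | ⟨i, j⟩)
    · rw [he_inl, map_pow, hWθu, coeffMap_famZero]
      simp only [famZero]
      rw [hθK]
      push_cast
      rw [hθv, hθu]
    · rw [he_inr, map_mul, map_mul, map_pow, map_sub, map_pow, map_pow, hWθu, hWxv, hWxu,
        coeffMap_famZero]
      simp only [famZero]
      rw [hθK, hxK]
      push_cast
      rw [hθv, hxv, hθu, hxu]
  -- the two embeddings
  obtain ⟨j₁, hj₁⟩ : ∃ j₁ : ModelField K₁ (M * q) →ₐ[K₁] LaurentSeries K₁,
      ∀ z, j₁ z = (z : LaurentSeries K₁) :=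
    ⟨(laurentBaseChange K₁ (modularFunctionFieldFull (M * q))).val, fun _ => rfl⟩
  obtain ⟨j₂, hj₂⟩ : ∃ j₂ : ModelField K₁ (M * q) →ₐ[K₁] LaurentSeries K₁,
      ∀ z, j₂ z = ((W z : ModelField K₁ (M * q)) : LaurentSeries K₁) :=
    ⟨j₁.comp (W : ModelField K₁ (M * q) →ₐ[K₁] ModelField K₁ (M * q)), fun z => by
      rw [AlgHom.comp_apply, hj₁]
      rfl⟩
  -- the residue field
  have hchar : CharP (IsLocalRing.ResidueField A₀) q := ssa_charP q hq hqA
  -- degree
  have hfin : Module.finrank (chartField A₀ (ModelField K₁ (M * q)) x) (ModelField K₁ (M * q)) =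
      Fintype.card (Fin d ⊕ (Fin d × Fin q)) := by
    rw [hDeg K₁ A₀ x hx, ssa_card, hd]
    exact Fermat.Agent.H26.dedekindPsi_mul_prime_of_not_dvd M q
      (Nat.pos_of_ne_zero (NeZero.ne M)) hq hqM
  have hne : Nonempty (Fin d ⊕ (Fin d × Fin q)) := ⟨Sum.inl ⟨0, hdpos⟩⟩
  -- two-sided Gauss independence
  have hGI : ∀ p : Fin d ⊕ (Fin d × Fin q) → (IsLocalRing.ResidueField A₀)[X],
      ∑ s, aeval (coeffMap (IsLocalRing.residue A₀) (jqModC A₀)) (p s) *
        coeffMap (IsLocalRing.residue A₀)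
          (coeffMap (Int.castRingHom A₀) (famInf ℤ q (jqModC ℤ) θ d s)) = 0 →
      ∑ s, aeval (coeffMap (IsLocalRing.residue A₀) (qExpand A₀ q (jqModC A₀))) (p s) *
        coeffMap (IsLocalRing.residue A₀)
          (coeffMap (Int.castRingHom A₀) (famZero ℤ q (jqModC ℤ) θ d s)) = 0 → ∀ s, p s = 0 := by
    intro p h1 h2
    refine ssq_twoSidedGI hTw (IsLocalRing.ResidueField A₀) q hq
      (jqModC (IsLocalRing.ResidueField A₀))
      (coeffMap (Int.castRingHom (IsLocalRing.ResidueField A₀)) θ) d ?_ ?_ ?_ p ?_ ?_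
    · exact fun p hp => Fermat.Agent.H66.KLM.sb_gi q θ d hn (IsLocalRing.ResidueField A₀) p hp
    · refine ⟨-1, ?_, ?_⟩
      · intro hdvd
        have h3 : (q : ℤ) ∣ 1 := (dvd_neg (a := (q : ℤ)) (b := 1)).mp hdvd
        have h4 : q ∣ 1 := by exact_mod_cast h3
        exact hq.one_lt.ne' (Nat.dvd_one.mp h4)
      · rw [ModularCurve.coeff_jqModC_neg_one]
        exact one_ne_zero
    · have h3 := hFrob (IsLocalRing.ResidueField A₀) q hq hchar (jqModC ℤ)
      rwa [coeffMap_jqModC] at h3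
    · rw [← h1]
      refine Finset.sum_congr rfl fun s _ => ?_
      rw [coeffMap_jqModC, ssa_coeffMap_int, coeffMap_famInf, coeffMap_jqModC]
    · rw [← h2]
      refine Finset.sum_congr rfl fun s _ => ?_
      rw [coeffMap_qExpand, coeffMap_jqModC, ssa_coeffMap_int, coeffMap_famZero, coeffMap_jqModC]
  -- the conclusion
  refine ⟨d, θM, xM, hxMc, ?_, ⟨coeffMap (Int.castRingHom A₀) θ, ?_⟩, ?_⟩
  · obtain ⟨y, hy, hyint⟩ := hInt K₁ A₀ x hx θ (ssf_adjoin_le M q hθ)
    have hyθ : y = heckeAlphaBar K₁ M q θM := Subtype.ext (by rw [hy, ← hθudef, hθu])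
    rw [← hyθ]
    exact hyint
  · rw [hθMc]
    exact ssa_coeffMap_int (algebraMap A₀ K₁) θ
  · intro z hz1 hz2
    obtain ⟨a, b, ha, hb, hbu, hab⟩ := InV.exists_quot _ hz1
    obtain ⟨a₂, b₂, ha₂, hb₂, hbu₂, hab₂⟩ := InV.exists_quot _ hz2
    obtain ⟨h, p, hnd, hsum⟩ := frac_expand (ι := Fin d ⊕ (Fin d × Fin q)) j₁ j₂ ϖ hϖ x
      (jqModC A₀) (qExpand A₀ q (jqModC A₀))
      (by rw [coeffMap_jqModC, hj₁, hx, coeffEmb_jq])
      (by rw [coeffMap_qExpand, coeffMap_jqModC, hj₂, hxxu, hWxu, hxv])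
      e
      (fun s => coeffMap (Int.castRingHom A₀) (famInf ℤ q (jqModC ℤ) θ d s))
      (fun s => coeffMap (Int.castRingHom A₀) (famZero ℤ q (jqModC ℤ) θ d s))
      (fun s => by rw [ssa_coeffMap_int, hj₁, he_exp])
      (fun s => by rw [ssa_coeffMap_int, hj₂, hWe])
      hfin hGI z a b (W.symm a₂) (W.symm b₂)
      (fun m => by rw [hj₁]; exact ha m) (fun m => by rw [hj₁]; exact hb m)
      (by simpa only [hj₁] using hbu)
      (fun m => by rw [hj₂, W.apply_symm_apply]; exact ha₂ m)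
      (fun m => by rw [hj₂, W.apply_symm_apply]; exact hb₂ m)
      (by simpa only [hj₂, W.apply_symm_apply] using hbu₂) hab
      (by rw [← hab₂, map_mul, W.symm_apply_apply])
    refine ⟨h, fun i => p (Sum.inl i), fun i j => p (Sum.inr (i, j)), hnd, ?_⟩
    rw [hsum, Fintype.sum_sum_type, Fintype.sum_prod_type]
    congr 1
    · refine Finset.sum_congr rfl fun i _ => ?_
      rw [he_inl, hθudef]
    · refine Finset.sum_congr rfl fun i _ => Finset.sum_congr rfl fun j _ => ?_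
      rw [he_inr, hθudef, hxvdef, ← hxxu]

end Fermat.Agent.H30.SS
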