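import Mathlib
import Fermat.Agent.H30.SS.FracExpand
import Fermat.Agent.H45.SS.Model2
import Fermat.Agent.H62.SS.AtkinLehnerModel

/-!
# P-SS row 929 (SSH-16 FRAC), part 3 (helper30): residue degree one of `V_∞` over level `M`

`modelFrac (M q) (hq : q.Prime) (hqM : ¬ q ∣ M) : Fermat.Agent.H45.ModelFracStatement M q jq`.
-/

set_option autoImplicit false
set_option maxSynthPendingDepth 3
set_option linter.unusedSectionVars false
set_option linter.style.haveILetI false
set_option synthInstance.maxHeartbeats 400000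
set_option maxHeartbeats 1600000

noncomputable section

namespace Fermat.Agent.H30.SS

open Polynomial ModularCurve
open Fermat.Agent.H22.KL Fermat.Agent.H27.KLGB Fermat.Agent.H82.SS Fermat.Agent.H66.SS
open Fermat.Agent.H48.QExp Fermat.Agent.H87.KL
open Fermat.Agent.H7.SS

section Approx

variable {K₁ : Type} [Field K₁] {A₀ : Type} [CommRing A₀] [IsDomain A₀]
  [IsDiscreteValuationRing A₀] [Algebra A₀ K₁] [IsFractionRing A₀ K₁]
  (E : IntermediateField K₁ (LaurentSeries K₁))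

theorem inM_pow_sub_one {ε : LaurentSeries K₁} (h : InM (A₀ := A₀) E (ε - 1)) (n : ℕ) :
    InM (A₀ := A₀) E (ε ^ n - 1) := by
  have hε : InV (A₀ := A₀) E ε := InM.inV_of_sub_one E h
  induction n with
  | zero => rw [pow_zero, sub_self]; exact inM_zero E
  | succ n ih =>
    have h1 : ε ^ (n + 1) - 1 = ε ^ n * (ε - 1) + (ε ^ n - 1) := by ring
    rw [h1]
    exact inM_add E (inV_mul_inM E (inV_pow E hε n) h) ih

theorem inM_coe_add {x y : E} (hx : InM (A₀ := A₀) E (x : LaurentSeries K₁))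
    (hy : InM (A₀ := A₀) E (y : LaurentSeries K₁)) :
    InM (A₀ := A₀) E ((x + y : E) : LaurentSeries K₁) := inM_add E hx hy

theorem inM_coe_mul {x y : E} (hx : InV (A₀ := A₀) E (x : LaurentSeries K₁))
    (hy : InM (A₀ := A₀) E (y : LaurentSeries K₁)) :
    InM (A₀ := A₀) E ((x * y : E) : LaurentSeries K₁) := inV_mul_inM E hx hy

theorem inM_coe_mul' {x y : E} (hx : InM (A₀ := A₀) E (x : LaurentSeries K₁))
    (hy : InV (A₀ := A₀) E (y : LaurentSeries K₁)) :
    InM (A₀ := A₀) E ((x * y : E) : LaurentSeries K₁) := inM_mul_inV E hx hy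

theorem inV_coe_mul {x y : E} (hx : InV (A₀ := A₀) E (x : LaurentSeries K₁))
    (hy : InV (A₀ := A₀) E (y : LaurentSeries K₁)) :
    InV (A₀ := A₀) E ((x * y : E) : LaurentSeries K₁) := InV.mul E hx hy

theorem inV_coe_pow {x : E} (hx : InV (A₀ := A₀) E (x : LaurentSeries K₁)) (n : ℕ) :
    InV (A₀ := A₀) E ((x ^ n : E) : LaurentSeries K₁) := by
  have h1 : ((x ^ n : E) : LaurentSeries K₁) = (x : LaurentSeries K₁) ^ n := by
    push_cast
    rfl
  rw [h1]
  exact inV_pow E hx n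

theorem inM_coe_sum {ι : Type*} (s : Finset ι) (f : ι → E)
    (hf : ∀ i ∈ s, InM (A₀ := A₀) E (f i : LaurentSeries K₁)) :
    InM (A₀ := A₀) E ((∑ i ∈ s, f i : E) : LaurentSeries K₁) := by
  classical
  induction s using Finset.induction_on with
  | empty => rw [Finset.sum_empty]; exact inM_zero E
  | insert a s ha ih =>
    rw [Finset.sum_insert ha]
    exact inM_coe_add E (hf a (Finset.mem_insert_self a s))
      (ih fun i hi => hf i (Finset.mem_insert_of_mem hi))

/-- **Approximation**: if `u ∈ 𝔪_∞`, `s` is a unit of `V_∞`, `W s = s` and `W (s - u) = u`, every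
`z ∈ V_∞` is congruent modulo `𝔪_∞` to some `z' ∈ V_∞` with `W z' ∈ V_∞`
(`z' = z ε ^ n`, `ε = (s - u) / s`). -/
theorem exists_approx (hG : HasGNF A₀ E) {ϖ : A₀} (hϖ : Irreducible ϖ)
    (W : E ≃ₐ[K₁] E) (u s : E) (hs0 : s ≠ 0)
    (hu : InM (A₀ := A₀) E (u : LaurentSeries K₁))
    (hs : InV (A₀ := A₀) E ((s : LaurentSeries K₁))⁻¹)
    (hWs : W s = s) (hWu : W (s - u) = u)
    (z : E) (hz : InV (A₀ := A₀) E (z : LaurentSeries K₁)) :
    ∃ z' : E, InV (A₀ := A₀) E (z' : LaurentSeries K₁) ∧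
      InV (A₀ := A₀) E ((W z' : E) : LaurentSeries K₁) ∧
      InM (A₀ := A₀) E ((z' - z : E) : LaurentSeries K₁) := by
  classical
  have hφ : Function.Injective (algebraMap A₀ K₁) := IsFractionRing.injective A₀ K₁
  have hϖK : algebraMap A₀ K₁ ϖ ≠ 0 := fun h0 => hϖ.ne_zero ((map_eq_zero_iff _ hφ).1 h0)
  have hsinv : InV (A₀ := A₀) E ((s⁻¹ : E) : LaurentSeries K₁) := hs
  obtain ⟨ε, hεdef⟩ : ∃ ε : E, ε = (s - u) / s := ⟨_, rfl⟩
  have hε1 : ε - 1 = (-u) * s⁻¹ := by
    rw [hεdef]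
    field_simp
    ring
  have hWε : W ε = u * s⁻¹ := by
    rw [hεdef, map_div₀, hWu, hWs, div_eq_mul_inv]
  have huneg : InM (A₀ := A₀) E ((-u : E) : LaurentSeries K₁) := inM_neg E hu
  have hεM : InM (A₀ := A₀) E ((ε - 1 : E) : LaurentSeries K₁) := by
    rw [hε1]
    exact inM_coe_mul' E huneg hsinv
  have hεM' : InM (A₀ := A₀) E ((ε : LaurentSeries K₁) - 1) := hεM
  have hεV : InV (A₀ := A₀) E (ε : LaurentSeries K₁) := InM.inV_of_sub_one E hεM'
  have hWεM : InM (A₀ := A₀) E ((W ε : E) : LaurentSeries K₁) := by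
    rw [hWε]
    exact inM_coe_mul' E hu hsinv
  obtain ⟨n, hn⟩ := exists_pow_mul_inV E hG hϖ (W z).2
  refine ⟨z * ε ^ n, inV_coe_mul E hz (inV_coe_pow E hεV n), ?_, ?_⟩
  · have h1 := InM.inV_div E hWεM hϖ
    have h2 := InV.mul E hn (inV_pow E h1 n)
    have h3 : ((W (z * ε ^ n) : E) : LaurentSeries K₁) =
        algebraMap K₁ (LaurentSeries K₁) (algebraMap A₀ K₁ ϖ) ^ n * ((W z : E) : LaurentSeries K₁)
          * (algebraMap K₁ (LaurentSeries K₁) (algebraMap A₀ K₁ ϖ)⁻¹ *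
            ((W ε : E) : LaurentSeries K₁)) ^ n := by
      have hc0 : algebraMap K₁ (LaurentSeries K₁) (algebraMap A₀ K₁ ϖ) ≠ 0 := by
        rw [Ne, map_eq_zero]
        exact hϖK
      rw [map_mul, map_pow, map_inv₀, mul_pow, inv_pow]
      have h4 : (((W z * W ε ^ n : E)) : LaurentSeries K₁) =
          ((W z : E) : LaurentSeries K₁) * ((W ε : E) : LaurentSeries K₁) ^ n := by
        push_cast
        rfl
      rw [h4]
      field_simp
    rw [h3]
    exact h2
  · have h1 : z * ε ^ n - z = z * (ε ^ n - 1) := by ring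
    rw [h1]
    refine inM_coe_mul E hz ?_
    have h2 : ((ε ^ n - 1 : E) : LaurentSeries K₁) = (ε : LaurentSeries K₁) ^ n - 1 := by
      push_cast
      rfl
    rw [h2]
    exact inM_pow_sub_one E hεM' n

end Approx

section Reduction

/-- `x̄ - x̄(t^q)^q ≠ 0` -/
theorem frac_red_ne_zero (k : Type) [Field k] (q : ℕ) [NeZero q] (hq : q.Prime) :
    jqModC k - (qExpand k q (jqModC k)) ^ q ≠ 0 := by
  intro h0
  have hnd : ¬ ((q : ℕ) : ℤ) ∣ (-1 : ℤ) := by
    intro hdvd
    have h3 : (q : ℤ) ∣ 1 := (dvd_neg (a := (q : ℤ)) (b := 1)).mp hdvd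
    have h4 : q ∣ 1 := by exact_mod_cast h3
    exact hq.one_lt.ne' (Nat.dvd_one.mp h4)
  have h3 := congrArg (fun y : LaurentSeries k => y.coeff (-1)) h0
  simp only [HahnSeries.coeff_sub, HahnSeries.coeff_zero] at h3
  rw [← map_pow, qExpand_coeff_of_not_dvd q _ hnd, sub_zero,
    ModularCurve.coeff_jqModC_neg_one] at h3
  exact one_ne_zero h3

end Reduction

section Main

/-- **FRAC (row 929)**: the residue field of the Gauss valuation ring `V_∞` of level `M q` is
generated by level `M`. -/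
theorem modelFrac (M q : ℕ) [NeZero M] [NeZero q] (hq : q.Prime) (hqM : ¬ q ∣ M) :
    Fermat.Agent.H45.ModelFracStatement M q jq := by
  classical
  intro K₁ _ _ _ A₀ _ _ _ _ _ _ _ hqA ϖ hϖ x hx z hzq
  have hNZ : NeZero (M * q) := ⟨Nat.mul_ne_zero (NeZero.ne M) (NeZero.ne q)⟩
  have hcop : Nat.Coprime M q := ((Nat.Prime.coprime_iff_not_dvd hq).mpr hqM).symm
  obtain ⟨W, hW⟩ := Fermat.Agent.H62.SS.modelAtkinLehnerExists M q hcop K₁
  obtain ⟨d, θM, xM, hxM, hθint, ⟨θA, hθA⟩, hexp⟩ :=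
    modelExpand M q hq hqM K₁ A₀ hqA ϖ hϖ x hx W hW
  have hφ : Function.Injective (algebraMap A₀ K₁) := IsFractionRing.injective A₀ K₁
  have hG := hasGNF_model K₁ A₀ (M * q)
  have hchar : CharP (IsLocalRing.ResidueField A₀) q := ssa_charP q hq hqA
  -- notation
  obtain ⟨θu, hθudef⟩ : ∃ θu : ModelField K₁ (M * q), θu = heckeAlphaBar K₁ M q θM := ⟨_, rfl⟩
  obtain ⟨xv, hxvdef⟩ : ∃ xv : ModelField K₁ (M * q), xv = heckeBetaBar K₁ M q xM := ⟨_, rfl⟩
  have hxc : (x : LaurentSeries K₁) = jqModC K₁ := by rw [hx, coeffEmb_jq]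
  have hxα : heckeAlphaBar K₁ M q xM = x :=
    Subtype.ext (by rw [coe_heckeAlphaBar, hxM, hxc])
  have hxvc : (xv : LaurentSeries K₁) = qExpand K₁ q (jqModC K₁) := by
    rw [hxvdef, coe_heckeBetaBar, hxM]
  have hθuc : (θu : LaurentSeries K₁) = gIota K₁ A₀ θA := by
    rw [hθudef, coe_heckeAlphaBar, hθA]
  have hWx : W x = xv := by rw [← hxα, hxvdef]; exact hW.1 _
  have hWxv : W xv = x := by rw [← hxα, hxvdef]; exact hW.2 _
  rw [← hθudef] at hθint
  rw [← hxvdef, ← hθudef] at hexp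
  -- integral expansions
  have hxA : gIota K₁ A₀ (jqModC A₀) = (x : LaurentSeries K₁) := by
    rw [hxc]
    exact coeffMap_jqModC _
  have hxvA : gIota K₁ A₀ (qExpand A₀ q (jqModC A₀)) = (xv : LaurentSeries K₁) := by
    rw [hxvc]
    show coeffMap _ _ = _
    rw [coeffMap_qExpand, coeffMap_jqModC]
  -- reductions
  have hrx : gRho A₀ (jqModC A₀) = jqModC (IsLocalRing.ResidueField A₀) := coeffMap_jqModC _
  have hrxv : gRho A₀ (qExpand A₀ q (jqModC A₀)) =
      qExpand (IsLocalRing.ResidueField A₀) q (jqModC (IsLocalRing.ResidueField A₀)) := by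
    show coeffMap _ _ = _
    rw [coeffMap_qExpand, coeffMap_jqModC]
  have hfrob : qExpand (IsLocalRing.ResidueField A₀) q (jqModC (IsLocalRing.ResidueField A₀)) =
      (jqModC (IsLocalRing.ResidueField A₀)) ^ q := by
    have h3 := Fermat.Agent.H57.SS.frob (IsLocalRing.ResidueField A₀) q hq hchar (jqModC ℤ)
    rwa [coeffMap_jqModC] at h3
  -- `InV` of integral elements
  have hxV : InV (A₀ := A₀) (laurentBaseChange K₁ (modularFunctionFieldFull (M * q)))
      (x : LaurentSeries K₁) := by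
    rw [← hxA]
    exact inV_of_int _ (by rw [hxA]; exact x.2)
  have hxvV : InV (A₀ := A₀) (laurentBaseChange K₁ (modularFunctionFieldFull (M * q)))
      (xv : LaurentSeries K₁) := by
    rw [← hxvA]
    exact inV_of_int _ (by rw [hxvA]; exact xv.2)
  have hθV : InV (A₀ := A₀) (laurentBaseChange K₁ (modularFunctionFieldFull (M * q)))
      (θu : LaurentSeries K₁) := by
    rw [hθuc]
    exact inV_of_int _ (by rw [← hθuc]; exact θu.2)
  have hav : ∀ P : A₀[X], ((aeval x P : ModelField K₁ (M * q)) : LaurentSeries K₁) =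
      gIota K₁ A₀ (aeval (jqModC A₀) P) := fun P =>
    map_aeval_eq_coeffMap (laurentBaseChange K₁ (modularFunctionFieldFull (M * q))).val x
      (jqModC A₀) hxA P
  have haV : ∀ P : A₀[X], InV (A₀ := A₀)
      (laurentBaseChange K₁ (modularFunctionFieldFull (M * q)))
      ((aeval x P : ModelField K₁ (M * q)) : LaurentSeries K₁) := by
    intro P
    rw [hav]
    exact inV_of_int _ (by rw [← hav]; exact (aeval x P).2)
  -- the element `u = x_q - x ^ q`
  obtain ⟨u, hudef⟩ : ∃ u : ModelField K₁ (M * q), u = xv - x ^ q := ⟨_, rfl⟩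
  obtain ⟨s, hsdef⟩ : ∃ s : ModelField K₁ (M * q), s = u + (x - xv ^ q) := ⟨_, rfl⟩
  have huc : (u : LaurentSeries K₁) =
      gIota K₁ A₀ (qExpand A₀ q (jqModC A₀) - (jqModC A₀) ^ q) := by
    rw [map_sub, map_pow, hxvA, hxA, hudef]
    push_cast
    rfl
  have hsc : (s : LaurentSeries K₁) =
      gIota K₁ A₀ ((qExpand A₀ q (jqModC A₀) - (jqModC A₀) ^ q) +
        (jqModC A₀ - (qExpand A₀ q (jqModC A₀)) ^ q)) := by
    rw [map_add, ← huc, map_sub, map_pow, hxvA, hxA, hsdef]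
    push_cast
    rfl
  have hru : gRho A₀ (qExpand A₀ q (jqModC A₀) - (jqModC A₀) ^ q) = 0 := by
    rw [map_sub, map_pow, hrxv, hrx, hfrob, sub_self]
  have hrs : gRho A₀ ((qExpand A₀ q (jqModC A₀) - (jqModC A₀) ^ q) +
      (jqModC A₀ - (qExpand A₀ q (jqModC A₀)) ^ q)) ≠ 0 := by
    rw [map_add, hru, zero_add, map_sub, map_pow, hrxv, hrx]
    exact frac_red_ne_zero _ q hq
  have huM : InM (A₀ := A₀) (laurentBaseChange K₁ (modularFunctionFieldFull (M * q)))
      (u : LaurentSeries K₁) := by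
    rw [huc]
    exact inM_of_int _ (by rw [← huc]; exact u.2) hru
  have hsV : InV (A₀ := A₀) (laurentBaseChange K₁ (modularFunctionFieldFull (M * q)))
      ((s : LaurentSeries K₁))⁻¹ := by
    rw [hsc]
    exact inV_inv_of_int _ (by rw [← hsc]; exact s.2) hrs
  have hs0 : s ≠ 0 := by
    intro h0
    have h1 := gIota_ne_zero_of_gRho (K₁ := K₁) hrs
    rw [← hsc, h0] at h1
    exact h1 rfl
  have hWs : W s = s := by
    rw [hsdef, hudef, map_add, map_sub, map_sub, map_pow, map_pow, hWx, hWxv]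
    ring
  have hWu : W (s - u) = u := by
    rw [hsdef, add_sub_cancel_left, map_sub, map_pow, hWx, hWxv, hudef]
  -- `z ∈ V_∞`
  have hzV : InV (A₀ := A₀) (laurentBaseChange K₁ (modularFunctionFieldFull (M * q)))
      (z : LaurentSeries K₁) := by
    obtain ⟨a, b, ha, hb, hbu, hab⟩ := hzq
    exact inV_of_quot _ a.2 b.2 ha hb hbu (congrArg Subtype.val hab)
  -- approximation
  obtain ⟨z', hz'V, hWz'V, hz'M⟩ := exists_approx
    (laurentBaseChange K₁ (modularFunctionFieldFull (M * q))) hG hϖ W u s hs0 huM hsV hWs hWu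
    z hzV
  -- expansion
  obtain ⟨h, p, r, hnd, hsum⟩ := hexp z' hz'V hWz'V
  rw [← hudef] at hsum
  have hα : ∀ P : A₀[X],
      heckeAlphaBar K₁ M q (aeval xM (P.map (algebraMap A₀ K₁))) = aeval x P := by
    intro P
    rw [← Polynomial.aeval_algHom_apply, hxα, Polynomial.aeval_map_algebraMap]
  have hb₁ : heckeAlphaBar K₁ M q
      (∑ i, aeval xM ((p i).map (algebraMap A₀ K₁)) * θM ^ (i : ℕ)) =
      ∑ i, aeval x (p i) * θu ^ (i : ℕ) := by
    rw [map_sum]
    refine Finset.sum_congr rfl fun i _ => ?_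
    rw [map_mul, map_pow, hα, hθudef]
  refine ⟨∑ i, aeval xM ((p i).map (algebraMap A₀ K₁)) * θM ^ (i : ℕ),
    aeval xM (h.map (algebraMap A₀ K₁)), ?_, ?_, ?_, ?_⟩
  · rw [hb₁]
    refine Subalgebra.sum_mem _ fun i _ => ?_
    exact Subalgebra.mul_mem _ ((mem_chartClosure_iff x _).2 (IntX.map x (p i)))
      (Subalgebra.pow_mem _ hθint _)
  · rw [hα]
    exact (mem_chartClosure_iff x _).2 (IntX.map x h)
  · rw [hα]
    intro hSS
    have h1 : InM (A₀ := A₀) (laurentBaseChange K₁ (modularFunctionFieldFull (M * q)))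
        ((aeval x h : ModelField K₁ (M * q)) : LaurentSeries K₁) :=
      (inM_iff_quot _ hϖ _).2 hSS
    rw [hav] at h1
    refine not_inM_of_int _ ?_ h1
    rw [show gRho A₀ (aeval (jqModC A₀) h) = _ from coeffMap_aeval _ _ _, hrx]
    intro h0
    have htr := P2MW.S_ModularCurve_coeff_jqModC_neg_one.ModularCurve.CharLRows.transcendental_jqModC
      (IsLocalRing.ResidueField A₀)
    have h2 := (transcendental_iff.mp htr) _ h0
    exact hnd ((map_residue_eq_zero_iff hϖ h).1 h2)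
  · rw [hα, hb₁]
    apply (inM_iff_quot _ hϖ _).1
    have key : z * aeval x h - ∑ i, aeval x (p i) * θu ^ (i : ℕ) =
        aeval x h * (-(z' - z)) + ∑ i, ∑ j, aeval x (r i j) *
          (θu ^ (i : ℕ) * u * xv ^ (j : ℕ)) := by
      linear_combination hsum
    rw [key]
    refine inM_coe_add _ (inM_coe_mul _ (haV h) (inM_neg _ hz'M)) ?_
    refine inM_coe_sum _ _ _ fun i _ => inM_coe_sum _ _ _ fun j _ => ?_
    refine inM_coe_mul _ (haV _) ?_
    exact inM_coe_mul' _ (inM_coe_mul _ (inV_coe_pow _ hθV _) huM) (inV_coe_pow _ hxvV _)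

end Main

end Fermat.Agent.H30.SS
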